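import Mathlib.Data.Nat.Choose.Dvd
import Mathlib.NumberTheory.Pell
import Mathlib.RingTheory.Int.Basic
import Mathlib.Tactic

/-!
# Størmer's lemma on Pell equations

If every prime dividing the `y` of a positive solution of `x ^ 2 - d y ^ 2 = 1` divides `d`, the
solution is fundamental: a `p`-th power of a smaller one multiplies `y` by a number which would be a
power of `p`, larger than `p`, while congruences show it is exactly divisible by `p`.
-/

set_option autoImplicit false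

noncomputable section

open Pell

namespace FA.Stormer

/-- The coordinates of the powers of a solution, in terms of `x` and `δ = d y ^ 2`. -/
def coords (x δ : ℤ) : ℕ → ℤ × ℤ
  | 0 => (1, 0)
  | n + 1 => (x * (coords x δ n).1 + δ * (coords x δ n).2, (coords x δ n).1 + x * (coords x δ n).2)

theorem pow_eq {d : ℤ} (c : Solution₁ d) (n : ℕ) :
    (c ^ n).x = (coords c.x (d * c.y ^ 2) n).1 ∧
      (c ^ n).y = c.y * (coords c.x (d * c.y ^ 2) n).2 := by
  induction n with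
  | zero => simp [coords]
  | succ n ih =>
    rw [pow_succ, Solution₁.x_mul, Solution₁.y_mul, ih.1, ih.2]
    simp only [coords]
    constructor <;> ring

theorem congr_one (x δ : ℤ) (n : ℕ) :
    δ ∣ (coords x δ n).1 - x ^ n ∧ δ ∣ x * (coords x δ n).2 - n * x ^ n := by
  induction n with
  | zero => simp [coords]
  | succ n ih =>
    obtain ⟨⟨a, ha⟩, ⟨b, hb⟩⟩ := ih
    refine ⟨⟨x * a + (coords x δ n).2, ?_⟩, ⟨x * a + x * b, ?_⟩⟩ <;> simp only [coords]
    · linear_combination x * ha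
    · push_cast
      linear_combination x * ha + x * hb

theorem congr_two (x δ : ℤ) (n : ℕ) :
    δ ^ 2 ∣ x ^ 2 * (coords x δ n).1 - x ^ (n + 2) - n.choose 2 * x ^ n * δ ∧
      δ ^ 2 ∣ x ^ 3 * (coords x δ n).2 - n * x ^ (n + 2) - n.choose 3 * x ^ n * δ := by
  induction n with
  | zero => simp [coords]
  | succ n ih =>
    obtain ⟨⟨a, ha⟩, ⟨b, hb⟩⟩ := ih
    obtain ⟨e, he⟩ := (congr_one x δ n).2
    refine ⟨⟨x * a + x * e, ?_⟩, ⟨x * a + x * b, ?_⟩⟩ <;> simp only [coords]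
    · rw [Nat.choose_succ_succ, Nat.choose_one_right]
      push_cast
      linear_combination x * ha + x * δ * he
    · rw [Nat.choose_succ_succ]
      push_cast
      linear_combination x * ha + x * hb

theorem coords_pos {x δ : ℤ} (hx : 2 ≤ x) (hδ : 0 ≤ δ) : ∀ n : ℕ,
    1 ≤ (coords x δ n).1 ∧ (n : ℤ) ≤ (coords x δ n).2 ∧
      (2 ≤ n → (n : ℤ) < (coords x δ n).2) := by
  intro n
  induction n with
  | zero => simp [coords]
  | succ n ih =>
    obtain ⟨h1, h2, -⟩ := ih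
    have h0 : (0 : ℤ) ≤ (coords x δ n).2 := le_trans (Nat.cast_nonneg n) h2
    have h4 := mul_nonneg hδ h0
    have h5 := mul_le_mul_of_nonneg_right hx h0
    have h6 := mul_le_mul_of_nonneg_right hx (by linarith : (0 : ℤ) ≤ (coords x δ n).1)
    simp only [coords]
    push_cast
    refine ⟨by linarith, by linarith, fun hn => ?_⟩
    have : (1 : ℤ) ≤ n := by exact_mod_cast (by omega : 1 ≤ n)
    linarith

/-- The multiplier of a `p`-th power has a prime factor not dividing `d y ^ 2`. -/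
theorem exists_new_prime {x δ : ℤ} (hx : 2 ≤ x) (hδ : x ^ 2 - δ = 1) {p : ℕ} (hp : p.Prime) :
    ∃ q : ℕ, q.Prime ∧ (q : ℤ) ∣ (coords x δ p).2 ∧ ¬ (q : ℤ) ∣ δ := by
  by_contra! hall
  have hδ0 : 0 ≤ δ := by nlinarith
  have hU := (coords_pos hx hδ0 p).2.2 hp.two_le
  set U := (coords x δ p).2 with hUdef
  have hcop : ∀ q : ℕ, q.Prime → (q : ℤ) ∣ δ → ¬ (q : ℤ) ∣ x := by
    intro q hq h1 h2
    have h3 : (q : ℤ) ∣ 1 := hδ ▸ dvd_sub (h2.pow two_ne_zero) h1
    exact hq.one_lt.ne' (Nat.dvd_one.1 (by exact_mod_cast h3))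
  have honly : ∀ q : ℕ, q.Prime → q ∣ U.natAbs → q = p := by
    intro q hq hqU
    have hqU' : (q : ℤ) ∣ U := Int.natCast_dvd.2 hqU
    have hqδ := hall q hq hqU'
    have h1 : (q : ℤ) ∣ (p : ℤ) * x ^ p := by
      have := hqδ.trans (congr_one x δ p).2
      rw [← hUdef] at this
      simpa using dvd_sub (hqU'.mul_left x) this
    rcases (Nat.prime_iff_prime_int.1 hq).dvd_or_dvd h1 with h | h
    · exact (Nat.prime_dvd_prime_iff_eq hq hp).1 (by exact_mod_cast h)
    · exact absurd ((Nat.prime_iff_prime_int.1 hq).dvd_of_dvd_pow h) (hcop q hq hqδ)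
  have hUne : U.natAbs ≠ 0 := by omega
  obtain ⟨e, he⟩ : ∃ e, U.natAbs = p ^ e :=
    ⟨_, Nat.eq_prime_pow_of_unique_prime_dvd hUne fun {d} hd hdU => honly d hd hdU⟩
  have hUe : U = (p : ℤ) ^ e := by
    have h1 : (U.natAbs : ℤ) = (p : ℤ) ^ e := by rw [he]; push_cast; rfl
    omega
  have he2 : 2 ≤ e := by
    by_contra! h
    interval_cases e <;> simp at hUe <;> have := hp.two_le <;> omega
  have hpδ : (p : ℤ) ∣ δ :=
    hall p hp (hUe ▸ dvd_pow_self _ (by omega : e ≠ 0))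
  have hpx := hcop p hp hpδ
  have hpx2 : ¬ (p : ℤ) ∣ x ^ (p + 2) := fun h =>
    hpx ((Nat.prime_iff_prime_int.1 hp).dvd_of_dvd_pow h)
  have hsq : (p : ℤ) ^ 2 ∣ U := hUe ▸ pow_dvd_pow _ he2
  rcases lt_or_ge p 5 with h5 | h5
  · have h23 : p = 2 ∨ p = 3 := by
      have := hp.two_le
      interval_cases p <;> revert hp <;> norm_num
    rcases h23 with rfl | rfl
    · have hU2 : U = 2 * x := by
        simp only [hUdef, coords]
        ring
      obtain ⟨t, ht⟩ := hsq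
      exact hpx ⟨t, by push_cast at ht ⊢; linarith⟩
    · have hU3 : U = 4 * x ^ 2 - 1 := by
        simp only [hUdef, coords]
        linear_combination (-1 : ℤ) * hδ
      have hdiv : ∀ w : ℤ, 0 < w → w ∣ U → w = 1 ∨ (3 : ℤ) ∣ w := by
        intro w hw hwU
        rw [hUe] at hwU
        obtain ⟨j, -, hj⟩ := (dvd_prime_pow (p := ((3 : ℕ) : ℤ))
          (Nat.prime_iff_prime_int.1 hp) e).1 hwU
        have hwj : w = (3 : ℤ) ^ j := by
          have h' := Int.associated_iff_natAbs.1 hj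
          rw [Int.natAbs_pow, Int.natAbs_natCast] at h'
          have h'' : (w.natAbs : ℤ) = (3 : ℤ) ^ j := by rw [h']; push_cast; rfl
          omega
        rcases Nat.eq_zero_or_pos j with rfl | hj0
        · exact Or.inl (by simpa using hwj)
        · exact Or.inr (hwj ▸ dvd_pow_self 3 hj0.ne')
      rcases hdiv (2 * x - 1) (by linarith) ⟨2 * x + 1, by rw [hU3]; ring⟩ with h1 | h1
      · omega
      rcases hdiv (2 * x + 1) (by linarith) ⟨2 * x - 1, by rw [hU3]; ring⟩ with h2 | h2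
      · omega
      · omega
  · obtain ⟨t, ht⟩ : p ∣ p.choose 3 := hp.dvd_choose_self (by norm_num) (by omega)
    obtain ⟨a, ha⟩ := hpδ
    have h1 := (congr_two x δ p).2
    rw [← hUdef] at h1
    have h2 : (p : ℤ) ^ 2 ∣ (p : ℤ) * x ^ (p + 2) := by
      have hA : (p : ℤ) ^ 2 ∣ x ^ 3 * U := hsq.mul_left _
      have hB : (p : ℤ) ^ 2 ∣ (p.choose 3 : ℤ) * x ^ p * δ :=
        ⟨t * a * x ^ p, by rw [ht, ha]; push_cast; ring⟩
      have hC : (p : ℤ) ^ 2 ∣ δ ^ 2 := ⟨a ^ 2, by rw [ha]; ring⟩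
      obtain ⟨w, hw⟩ := dvd_sub (dvd_sub hA hB) (hC.trans h1)
      exact ⟨w, by linarith⟩
    rw [sq] at h2
    exact hpx2 ((mul_dvd_mul_iff_left (Int.natCast_ne_zero.2 hp.ne_zero)).1 h2)

/-- **Størmer's lemma.** -/
theorem isFundamental_of_primes {d : ℤ} {b : Solution₁ d} (hbx : 1 < b.x) (hby : 0 < b.y)
    (h : ∀ q : ℕ, q.Prime → (q : ℤ) ∣ b.y → (q : ℤ) ∣ d) : IsFundamental b := by
  obtain ⟨a, ha⟩ :=
    IsFundamental.exists_of_not_isSquare (b.d_pos_of_one_lt_x hbx) (b.d_nonsquare_of_one_lt_x hbx)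
  obtain ⟨n, rfl⟩ := ha.eq_pow_of_nonneg (by linarith) hby.le
  rcases (by omega : n = 0 ∨ n = 1 ∨ 2 ≤ n) with rfl | rfl | hn
  · simp at hby
  · rwa [pow_one]
  exfalso
  have hp := Nat.minFac_prime (by omega : n ≠ 1)
  obtain ⟨k, hk⟩ := Nat.minFac_dvd n
  set c := a ^ k with hc
  have hk0 : 0 < k := Nat.pos_of_ne_zero fun h0 => by rw [h0, mul_zero] at hk; omega
  obtain ⟨k', rfl⟩ : ∃ k', k = k' + 1 := ⟨k - 1, by omega⟩
  have hcy : 0 < c.y := Solution₁.y_pow_succ_pos ha.x_pos ha.2.1 k'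
  have hcx0 : 0 < c.x := Solution₁.x_pow_pos ha.x_pos _
  have hδ : c.x ^ 2 - d * c.y ^ 2 = 1 := c.prop
  have hcx : 2 ≤ c.x := by
    have hd := ha.d_pos
    have : 0 < d * c.y ^ 2 := by positivity
    nlinarith
  obtain ⟨q, hq, hqU, hqd⟩ := exists_new_prime hcx hδ hp
  refine hqd (dvd_mul_of_dvd_left (h q hq ?_) _)
  rw [hk, mul_comm, pow_mul, ← hc, (pow_eq c _).2]
  exact hqU.mul_left _

end FA.Stormer

end
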