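import Fermat.Agent.Stormer.Pell
import Mathlib.Data.Nat.Factorization.Basic

/-!
# Consecutive smooth numbers

Each pair `x`, `x + 1` of numbers built from the primes of `P` gives the fundamental solution of one
of finitely many Pell equations.
-/

set_option autoImplicit false

noncomputable section

open Finset Pell

namespace FA.Stormer

/-- The exponent code: absent, odd, or even. -/
def code (v : ℕ) : Fin 3 := if v = 0 then 0 else if v % 2 = 1 then 1 else 2

/-- The coefficient attached to a code. -/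
def coeff (P : Finset ℕ) (f : P → Fin 3) : ℕ := ∏ p : P, (p : ℕ) ^ (f p : ℕ)

theorem code_spec (v : ℕ) : v = (code v : ℕ) + 2 * ((v - (code v : ℕ)) / 2) := by
  rcases Nat.eq_zero_or_pos v with rfl | h
  · simp [code]
  rcases Nat.mod_two_eq_zero_or_one v with hv | hv <;> simp [code, h.ne', hv] <;> omega

theorem code_eq_zero {v : ℕ} (h : (code v : ℕ) = 0) : v = 0 := by
  by_contra hv
  rcases Nat.mod_two_eq_zero_or_one v with e | e <;> simp [code, hv, e] at h

/-- The `P`-smooth pairs. -/
def smoothPairs (P : Finset ℕ) : Set ℕ :=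
  {x | 0 < x ∧ ∀ q : ℕ, q.Prime → q ∣ x * (x + 1) → q ∈ P}

variable {P : Finset ℕ} {x : ℕ}

/-- The code of a pair. -/
def pairCode (P : Finset ℕ) (x : ℕ) : P → Fin 3 :=
  fun p => code ((4 * x * (x + 1)).factorization p)

theorem exists_solution (hx : x ∈ smoothPairs P) :
    ∃ Y : ℕ, 4 * x * (x + 1) = coeff P (pairCode P x) * Y ^ 2 ∧
      ∀ q : ℕ, q.Prime → q ∣ Y → q ∣ coeff P (pairCode P x) := by
  set N := 4 * x * (x + 1) with hN
  have hN0 : N ≠ 0 := by have := hx.1; positivity
  have hsupp : N.factorization.support ⊆ P := fun q hq => by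
    rw [Nat.support_factorization, Nat.mem_primeFactors] at hq
    obtain ⟨hqp, hqd, -⟩ := hq
    rw [hN, mul_assoc, hqp.dvd_mul] at hqd
    rcases hqd with h4 | h
    · rw [show (4 : ℕ) = 2 ^ 2 from rfl] at h4
      obtain rfl := (Nat.prime_dvd_prime_iff_eq hqp Nat.prime_two).1 (hqp.dvd_of_dvd_pow h4)
      exact hx.2 2 Nat.prime_two (Nat.even_mul_succ_self x).two_dvd
    · exact hx.2 q hqp h
  refine ⟨∏ p : P, (p : ℕ) ^ ((N.factorization p - (pairCode P x p : ℕ)) / 2), ?_,
    fun q hq hqY => ?_⟩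
  · conv_lhs => rw [← Nat.prod_factorization_pow_eq_self hN0]
    rw [Finsupp.prod_of_support_subset _ hsupp _ (fun _ _ => pow_zero _), ← prod_coe_sort P,
      coeff, ← prod_pow, ← prod_mul_distrib]
    refine prod_congr rfl fun p _ => ?_
    rw [← pow_mul, ← pow_add]
    congr 1
    rw [pairCode, mul_comm _ 2, ← hN]
    exact code_spec _
  · obtain ⟨p, -, hp⟩ := (Prime.dvd_finsetProd_iff hq.prime _).1 hqY
    refine dvd_trans ?_ (dvd_prod_of_mem _ (mem_univ p))
    have hne : (pairCode P x p : ℕ) ≠ 0 := fun h0 => by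
      rw [h0, show N.factorization p = 0 from code_eq_zero h0, pow_zero, Nat.dvd_one] at hp
      exact hq.one_lt.ne' hp
    exact (hq.dvd_of_dvd_pow hp).trans (dvd_pow_self _ hne)

/-- The solution of a pair. -/
theorem exists_fundamental (hx : x ∈ smoothPairs P) :
    ∃ b : Solution₁ (coeff P (pairCode P x) : ℤ), b.x = 2 * x + 1 ∧ IsFundamental b := by
  obtain ⟨Y, hY, hdvd⟩ := exists_solution hx
  have hY' : (4 : ℤ) * x * (x + 1) = (coeff P (pairCode P x) : ℤ) * (Y : ℤ) ^ 2 := by
    exact_mod_cast hY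
  set b : Solution₁ (coeff P (pairCode P x) : ℤ) :=
    Solution₁.mk (2 * (x : ℤ) + 1) Y (by linear_combination hY') with hb
  have hYpos : 0 < Y := Nat.pos_of_ne_zero fun h0 => by
    have := hx.1
    rw [h0] at hY
    simp [this.ne'] at hY
  refine ⟨b, by simp [hb], isFundamental_of_primes (by simp [hb]; exact hx.1) (by simp [hb, hYpos])
    fun q hq hqb => ?_⟩
  rw [hb, Solution₁.y_mk, Int.natCast_dvd_natCast] at hqb
  exact Int.natCast_dvd_natCast.2 (hdvd q hq hqb)

theorem pairCode_injOn (P : Finset ℕ) : Set.InjOn (pairCode P) (smoothPairs P) := by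
  intro x hx y hy hxy
  obtain ⟨a, ha, haf⟩ := exists_fundamental hx
  obtain ⟨b, hb, hbf⟩ := exists_fundamental hy
  revert a
  rw [hxy]
  intro a ha haf
  rw [haf.subsingleton hbf, hb] at ha
  omega

theorem exists_code_one (hx : x ∈ smoothPairs P) : ∃ p, pairCode P x p = 1 := by
  obtain ⟨b, -, hb⟩ := exists_fundamental hx
  by_contra! h
  refine hb.d_nonsquare ⟨((∏ p : P, (p : ℕ) ^ ((pairCode P x p : ℕ) / 2) : ℕ) : ℤ), ?_⟩
  rw [← Nat.cast_mul, coeff, ← prod_mul_distrib]
  congr 1
  refine prod_congr rfl fun p _ => ?_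
  rw [← pow_add]
  congr 1
  have := (pairCode P x p).isLt
  have hne : (pairCode P x p : ℕ) ≠ 1 := fun e => h p (Fin.ext e)
  omega

/-- **Størmer's theorem.** -/
theorem smoothPairs_finite (P : Finset ℕ) :
    (smoothPairs P).Finite ∧ (smoothPairs P).ncard ≤ 3 ^ P.card - 2 ^ P.card := by
  classical
  set T : Finset (P → Fin 3) := univ.filter fun f => ∃ p, f p = 1 with hT
  have hmaps : Set.MapsTo (pairCode P) (smoothPairs P) T := fun x hx => by
    rw [hT, coe_filter, Set.mem_ofPred_eq]
    exact ⟨mem_univ _, exists_code_one hx⟩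
  refine ⟨Set.Finite.of_injOn hmaps (pairCode_injOn P) T.finite_toSet, ?_⟩
  refine (Set.ncard_le_ncard_of_injOn _ hmaps (pairCode_injOn P) T.finite_toSet).trans ?_
  rw [Set.ncard_coe_finset]
  have hc := card_filter_add_card_filter_not (s := (univ : Finset (P → Fin 3)))
    (p := fun f => ∃ p, f p = 1)
  rw [← hT, card_univ, Fintype.card_fun, Fintype.card_fin, Fintype.card_coe] at hc
  have hcompl : (univ.filter fun f : P → Fin 3 => ¬ ∃ p, f p = 1).card = 2 ^ P.card := by
    rw [show (univ.filter fun f : P → Fin 3 => ¬ ∃ p, f p = 1) =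
      Fintype.piFinset fun _ => ({0, 2} : Finset (Fin 3)) from ?_, Fintype.card_piFinset]
    · simp
    · ext f
      simp only [mem_filter, mem_univ, true_and, not_exists, Fintype.mem_piFinset, mem_insert,
        mem_singleton]
      refine forall_congr' fun p => ?_
      revert p
      intro p
      generalize f p = z
      revert z
      decide
  omega

/-- **The largest prime factor tends to infinity.** -/
theorem exists_large_prime (N : ℕ) :
    ∃ X : ℕ, ∀ x, X < x → ∃ q, q.Prime ∧ N ≤ q ∧ q ∣ x * (x + 1) := by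
  obtain ⟨hfin, -⟩ := smoothPairs_finite ((range N).filter Nat.Prime)
  obtain ⟨X, hX⟩ := hfin.bddAbove
  refine ⟨X, fun x hx => ?_⟩
  by_contra! h
  refine absurd (hX ⟨by omega, fun q hq hqx => ?_⟩) (by omega : ¬ x ≤ X)
  rw [mem_filter, mem_range]
  exact ⟨not_le.1 fun hle => h q hq hle hqx, hq⟩

end FA.Stormer

end
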